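import Fermat.Agent.S36.Mod3.Spec
import Fermat.Agent.A2.Mod.H816.L8Val
import Fermat.Agent.A2.Mod.H31.Deg
import Fermat.Agent.A2.Mod.H398.Conv
import Fermat.Agent.S24.FFFinite
import Fermat.Agent.A2.Mod.Asm

/-!
# S36 / MOD3 leaf FF (helper469)

`leafFF : Mod3.LeafFF` : at level `M q q` (`q ∤ M` prime), for the coordinate
`x = j · j_q · j_{q²}`:

* `x` is transcendental over `E`            (`v∞ x = -(1 + q + q²) < 0`),
* `F_{Mqq,E}` is finite over `E(x)`          (finite over `E(j)` of degree `ψ(M q q) ≠ 0`,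
                                               then exchange `j ↔ x`),
* `E` is algebraically closed in `F_{Mqq,E}` (`H816.mem_range_of_isAlgebraic`).

Statement VERBATIM from `Fermat/Agent/S36/Mod3/Spec.lean`.
-/

set_option autoImplicit false
set_option linter.unusedSectionVars false
set_option synthInstance.maxHeartbeats 400000
set_option maxHeartbeats 1600000

noncomputable section

namespace Fermat.Agent.S36.Mod3.H469

open ModularCurve HahnSeries Polynomial IntermediateField

variable (E : IntermediateField ℚ A2.Qb) (M q : ℕ) [NeZero M] [NeZero q] [NeZero (M * q)]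

/-- `v∞ (j j_q j_{q²}) = -(1 + q + q²)` at level `M q q`. -/
theorem vInf_x3E_h469 :
    A2.Mod.H816.vInf E (M * q * q) (x3E E M q)
      = ((-(1 + (q : ℤ) + (q : ℤ) * (q : ℤ)) : ℤ) : WithTop ℤ) := by
  rw [x3E, j1, jq, jqq,
    A2.Mod.H816.addVal_mul_coe _
      (A2.Mod.H816.addVal_mul_coe _
        (A2.Mod.H816.vInf_jE E (M * q * q) 1 (one_dvd _))
        (A2.Mod.H816.vInf_jE E (M * q * q) q (Dvd.intro_left (M * q) rfl)))
      (A2.Mod.H816.vInf_jE E (M * q * q) (q * q) ⟨M, by ring⟩)]
  congr 1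
  push_cast
  ring

/-- `x = j j_q j_{q²}` is transcendental over `E`. -/
theorem transcendental_x3E_h469 : Transcendental E (x3E E M q) := by
  refine A2.Mod.H816.transcendental_of_addVal_neg (A2.Mod.H816.vInf E (M * q * q))
    (fun c hc => A2.Mod.H816.vInf_algebraMap E _ hc)
    (a := -(1 + (q : ℤ) + (q : ℤ) * (q : ℤ))) ?_ (vInf_x3E_h469 E M q)
  have h1 : (0 : ℤ) ≤ q := Int.natCast_nonneg q
  nlinarith

/-- `j` is transcendental over `E` (any level). -/
theorem transcendental_j1_h469 : Transcendental E (j1 E M q) := by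
  refine A2.Mod.H816.transcendental_of_addVal_neg (A2.Mod.H816.vInf E (M * q * q))
    (fun c hc => A2.Mod.H816.vInf_algebraMap E _ hc)
    (a := -((1 : ℕ) : ℤ)) ?_ (A2.Mod.H816.vInf_jE E (M * q * q) 1 (one_dvd _))
  norm_num

/-- `F_{Mqq,E}` is finite over `E(j)`. -/
theorem finiteDimensional_j1_h469 :
    FiniteDimensional (adjoin E ({j1 E M q} : Set (A2.Mod.FE E (M * q * q))))
      (A2.Mod.FE E (M * q * q)) := by
  have hN : M * q * q ≠ 0 :=
    Nat.mul_ne_zero (NeZero.ne (M * q)) (NeZero.ne q)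
  have hchar : ∀ p : ℕ, p.Prime → p ∣ M * q * q → ((p : ℕ) : E) ≠ 0 :=
    fun p hp _ => Nat.cast_ne_zero.mpr hp.ne_zero
  apply A2.Mod.H398.finiteDimensional_adjoin_simple_of_relfinrank_ne_zero
  rw [j1, A2.Mod.H31.coe_jE, qExpand_one_apply, A2.Mod.H31.FE_eq_fullC,
    A2.Mod.H31.relfinrank_j_fullC E (M * q * q) hN hchar]
  exact (A2.Mod.dedekindPsi_pos_of_ne_zero (M * q * q) hN).ne'

/-- `F_{Mqq,E}` is finite over `E(x)`. -/
theorem finiteDimensional_x3E_h469 :
    FiniteDimensional (adjoin E ({x3E E M q} : Set (A2.Mod.FE E (M * q * q))))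
      (A2.Mod.FE E (M * q * q)) := by
  have := finiteDimensional_j1_h469 E M q
  exact Fermat.Agent.S24.FF.finiteDimensional_adjoin_of_transcendental
    (transcendental_j1_h469 E M q) (transcendental_x3E_h469 E M q)

/-- **Leaf FF** of MOD3. -/
theorem leafFF : Mod3.LeafFF := by
  intro E M q _ _ _ _ _
  exact
    { hx := transcendental_x3E_h469 E M q
      hfin := finiteDimensional_x3E_h469 E M q
      hconst := fun f hf => A2.Mod.H816.mem_range_of_isAlgebraic E (M * q * q) f hf }

end Fermat.Agent.S36.Mod3.H469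

end
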